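import Mathlib.Algebra.Group.ForwardDiff
import Mathlib.RingTheory.PowerSeries.Trunc
import Mathlib.Algebra.Polynomial.BigOperators
import Mathlib.Tactic

/-!
# The Padé approximants of Euler's series

With `Q n t = ∑ i, (-1) ^ i C(n, i) ^ 2 i! t ^ i` the series `Q n t * ∑ k! t ^ k` has no terms of
degree `n ≤ k < 2 n`, and its coefficient of `t ^ (2 n + r)` is `(n + r)! ^ 2 / r!`.
-/

set_option autoImplicit false

noncomputable section

namespace FA.EulerDivergent

open Finset
open scoped Nat fwdDiff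

theorem fwdDiff_iter_choose_at (n m : ℕ) :
    Δ_[1]^[n] (fun x : ℕ => (x.choose m : ℤ)) m = m.choose n := by
  rcases le_or_gt n m with h | h
  · obtain ⟨j, rfl⟩ := Nat.exists_eq_add_of_le h
    rw [fwdDiff_iter_choose]
    show (((n + j).choose j : ℕ) : ℤ) = _
    rw [← Nat.choose_symm_add]
  · obtain ⟨k, rfl⟩ := Nat.exists_eq_add_of_lt h
    have h0 : Δ_[1]^[m] (fun x : ℕ => (x.choose m : ℤ)) = fun _ => 1 := by
      have := fwdDiff_iter_choose 0 m
      simpa using this
    rw [show m + k + 1 = k + 1 + m by ring, Function.iterate_add_apply, h0,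
      Function.iterate_succ_apply, fwdDiff_const, Nat.choose_eq_zero_of_lt (by omega)]
    simp [fwdDiff_iter_eq_sum_shift]

theorem alternating_choose_sum (n m : ℕ) :
    ∑ i ∈ range (n + 1), (-1 : ℤ) ^ i * n.choose i * ((m + (n - i)).choose m) = m.choose n := by
  rw [← fwdDiff_iter_choose_at, fwdDiff_iter_eq_sum_shift,
    ← Finset.sum_range_reflect (fun k => ((-1 : ℤ) ^ (n - k) * n.choose k) •
      ((m + k • 1).choose m : ℤ))]
  refine sum_congr rfl fun i hi => ?_
  have hi' : i ≤ n := Nat.lt_succ_iff.1 (mem_range.1 hi)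
  simp [Nat.sub_sub_self hi', Nat.choose_symm hi']

/-- The coefficient of `t ^ i` in the denominator. -/
def padeCoeff (n i : ℕ) : ℤ := (-1) ^ i * (n.choose i : ℤ) ^ 2 * i !

/-- The coefficient of `t ^ k` in `Q n t * ∑ k! t ^ k`. -/
def prodCoeff (n k : ℕ) : ℤ :=
  ∑ i ∈ range (n + 1), if i ≤ k then padeCoeff n i * (k - i)! else 0

theorem prodCoeff_add (n m : ℕ) : prodCoeff n (n + m) = n ! * m ! * m.choose n := by
  rw [prodCoeff, ← alternating_choose_sum n m, mul_sum]
  refine sum_congr rfl fun i hi => ?_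
  have hi' : i ≤ n := Nat.lt_succ_iff.1 (mem_range.1 hi)
  rw [if_pos (by omega), padeCoeff, show n + m - i = m + (n - i) by omega]
  have h1 := Nat.choose_mul_factorial_mul_factorial (Nat.le_add_right m (n - i))
  have h2 := Nat.choose_mul_factorial_mul_factorial hi'
  rw [Nat.add_sub_cancel_left] at h1
  rw [← h1, ← h2]
  push_cast
  ring

theorem prodCoeff_eq_zero {n k : ℕ} (h1 : n ≤ k) (h2 : k < 2 * n) : prodCoeff n k = 0 := by
  obtain ⟨m, rfl⟩ := Nat.exists_eq_add_of_le h1
  rw [prodCoeff_add, Nat.choose_eq_zero_of_lt (by omega)]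
  simp

theorem prodCoeff_two_mul_add (n r : ℕ) :
    prodCoeff n (2 * n + r) * r ! = ((n + r)! : ℤ) ^ 2 := by
  rw [two_mul, add_assoc, prodCoeff_add]
  have h := Nat.choose_mul_factorial_mul_factorial (Nat.le_add_right n r)
  rw [Nat.add_sub_cancel_left] at h
  have h' : ((n + r).choose n : ℤ) * n ! * r ! = ((n + r)! : ℤ) := by exact_mod_cast h
  linear_combination ((n + r)! : ℤ) * h'

theorem prodCoeff_two_mul (n : ℕ) : prodCoeff n (2 * n) = (n ! : ℤ) ^ 2 := by
  simpa using prodCoeff_two_mul_add n 0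

theorem sq_factorial_dvd_prodCoeff {n k : ℕ} (h : n ≤ k) :
    ((n ! : ℤ) ^ 2) ∣ prodCoeff n k := by
  obtain ⟨m, rfl⟩ := Nat.exists_eq_add_of_le h
  rw [prodCoeff_add]
  rcases le_or_gt n m with hm | hm
  · rw [sq]
    exact dvd_mul_of_dvd_left
      (mul_dvd_mul dvd_rfl (Int.natCast_dvd_natCast.2 (Nat.factorial_dvd_factorial hm))) _
  · simp [Nat.choose_eq_zero_of_lt hm]

/-- The denominator. -/
def padeDen (n : ℕ) : Polynomial ℤ :=
  ∑ i ∈ range (n + 1), Polynomial.C (padeCoeff n i) * Polynomial.X ^ i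

/-- The numerator. -/
def padeNum (n : ℕ) : Polynomial ℤ :=
  ∑ k ∈ range n, Polynomial.C (prodCoeff n k) * Polynomial.X ^ k

/-- Euler's series `∑ k! t ^ k`. -/
def eulerSeries : PowerSeries ℤ := PowerSeries.mk fun k => (k ! : ℤ)

theorem coe_padeDen (n : ℕ) : (padeDen n : PowerSeries ℤ) =
    ∑ i ∈ range (n + 1), PowerSeries.C (padeCoeff n i) * PowerSeries.X ^ i := by
  rw [padeDen, ← Polynomial.coeToPowerSeries.ringHom_apply, map_sum]
  simp only [map_mul, map_pow, Polynomial.coeToPowerSeries.ringHom_apply, Polynomial.coe_C,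
    Polynomial.coe_X]

theorem coe_padeNum (n : ℕ) : (padeNum n : PowerSeries ℤ) =
    ∑ i ∈ range n, PowerSeries.C (prodCoeff n i) * PowerSeries.X ^ i := by
  rw [padeNum, ← Polynomial.coeToPowerSeries.ringHom_apply, map_sum]
  simp only [map_mul, map_pow, Polynomial.coeToPowerSeries.ringHom_apply, Polynomial.coe_C,
    Polynomial.coe_X]

/-- **The remainder.** -/
theorem coeff_remainder (n k : ℕ) :
    PowerSeries.coeff k ((padeDen n : PowerSeries ℤ) * eulerSeries - (padeNum n : PowerSeries ℤ)) =
      if k < 2 * n then 0 else prodCoeff n k := by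
  have h1 : PowerSeries.coeff k ((padeDen n : PowerSeries ℤ) * eulerSeries) = prodCoeff n k := by
    rw [coe_padeDen, sum_mul, map_sum, prodCoeff]
    refine sum_congr rfl fun i _ => ?_
    rw [mul_assoc, PowerSeries.coeff_C_mul, PowerSeries.coeff_X_pow_mul']
    split_ifs <;> simp [eulerSeries]
  rw [map_sub, h1, coe_padeNum, map_sum]
  simp only [PowerSeries.coeff_C_mul, PowerSeries.coeff_X_pow, mul_ite, mul_one, mul_zero,
    Finset.sum_ite_eq, mem_range]
  rcases lt_or_ge k n with h | h
  · rw [if_pos h, if_pos (by omega), sub_self]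
  · rw [if_neg (by omega), sub_zero]
    split_ifs with h2
    · exact prodCoeff_eq_zero h h2
    · rfl

theorem natDegree_padeDen_le (n : ℕ) : (padeDen n).natDegree ≤ n :=
  Polynomial.natDegree_sum_le_of_forall_le _ _ fun i hi =>
    (Polynomial.natDegree_C_mul_X_pow_le _ i).trans (Nat.lt_succ_iff.1 (mem_range.1 hi))

theorem natDegree_padeNum_le (n : ℕ) : (padeNum n).natDegree ≤ n - 1 :=
  Polynomial.natDegree_sum_le_of_forall_le _ _ fun i hi =>
    (Polynomial.natDegree_C_mul_X_pow_le _ i).trans (by have := mem_range.1 hi; omega)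

/-- **Consecutive approximants.** -/
theorem padeDen_mul_padeNum_sub (n : ℕ) :
    padeDen (n + 1) * padeNum n - padeDen n * padeNum (n + 1) =
      -(Polynomial.C ((n ! : ℤ) ^ 2) * Polynomial.X ^ (2 * n)) := by
  obtain ⟨R, hR⟩ : ∃ R : ℕ → PowerSeries ℤ,
      ∀ j, R j = (padeDen j : PowerSeries ℤ) * eulerSeries - (padeNum j : PowerSeries ℤ) :=
    ⟨_, fun _ => rfl⟩
  ext k
  rw [Polynomial.coeff_neg, Polynomial.coeff_C_mul, Polynomial.coeff_X_pow, mul_ite, mul_one,
    mul_zero]
  rcases le_or_gt k (2 * n) with hk | hk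
  · rw [← Polynomial.coeff_coe, Polynomial.coe_sub, Polynomial.coe_mul, Polynomial.coe_mul,
      show (padeDen (n + 1) : PowerSeries ℤ) * padeNum n - padeDen n * padeNum (n + 1) =
        padeDen n * R (n + 1) - padeDen (n + 1) * R n by rw [hR, hR]; ring, map_sub,
      PowerSeries.coeff_mul, PowerSeries.coeff_mul]
    have hz : ∀ j, ∀ x ∈ antidiagonal k, x.2 < 2 * j → PowerSeries.coeff x.1
        (padeDen (n + 1) : PowerSeries ℤ) * PowerSeries.coeff x.2 (R j) = 0 := fun j x _ hx => by
      rw [hR, coeff_remainder, if_pos hx, mul_zero]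
    rw [sum_eq_zero (s := antidiagonal k) fun x hx => by
      have := HasAntidiagonal.mem_antidiagonal.1 hx
      rw [hR, coeff_remainder, if_pos (by omega), mul_zero]]
    rcases hk.eq_or_lt with rfl | hk
    · rw [if_pos rfl, sum_eq_single (0, 2 * n)]
      · rw [hR, coeff_remainder, if_neg (lt_irrefl _), prodCoeff_two_mul, Polynomial.coeff_coe,
          padeDen, Polynomial.finsetSum_coeff,
          sum_eq_single 0 (fun i _ hi => by simp [Polynomial.coeff_X_pow, hi.symm])
            (fun h => absurd (mem_range.2 (Nat.succ_pos _)) h)]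
        simp [padeCoeff]
      · intro x hx hx0
        have := HasAntidiagonal.mem_antidiagonal.1 hx
        refine hz n x hx ?_
        by_contra h
        exact hx0 (Prod.ext (by omega) (by omega))
      · intro h
        exact absurd (HasAntidiagonal.mem_antidiagonal.2 (zero_add _)) h
    · rw [if_neg hk.ne, sum_eq_zero fun x hx => by
        have := HasAntidiagonal.mem_antidiagonal.1 hx
        exact hz n x hx (by omega)]
      simp
  · rw [if_neg hk.ne', neg_zero]
    refine Polynomial.coeff_eq_zero_of_natDegree_lt (lt_of_le_of_lt ?_ hk)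
    have := natDegree_padeDen_le n
    have := natDegree_padeDen_le (n + 1)
    have := natDegree_padeNum_le n
    have := natDegree_padeNum_le (n + 1)
    rcases Nat.eq_zero_or_pos n with rfl | hn
    · refine (Polynomial.natDegree_sub_le _ _).trans ?_
      rw [show padeNum 0 = 0 from sum_range_zero _, mul_zero]
      simp only [Polynomial.natDegree_zero, zero_max]
      exact Polynomial.natDegree_mul_le.trans (by omega)
    · exact (Polynomial.natDegree_sub_le _ _).trans (max_le
        (Polynomial.natDegree_mul_le.trans (by omega))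
        (Polynomial.natDegree_mul_le.trans (by omega)))

end FA.EulerDivergent
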