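import Mathlib.NumberTheory.Padics.PadicIntegers
import Mathlib.Analysis.Normed.Group.Ultra
import Mathlib.Topology.Algebra.InfiniteSum.Nonarchimedean
import Fermat.Agent.EulerDivergent.Pade

/-!
# Euler's series over `ℤ_[p]`

If `∑ k! z ^ k = a / b` in `ℤ_[p]` then the integer `a Q n z - b P n z` is divisible by the square
of the power of `p` in `n!`.
-/

set_option autoImplicit false

noncomputable section

namespace FA.EulerDivergent

open Finset Filter
open scoped Nat Topology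

variable {p : ℕ} [Fact p.Prime]

/-- `∑ k! z ^ k` in `ℤ_[p]`. -/
def eulerValue (p : ℕ) [Fact p.Prime] (z : ℤ) : ℤ_[p] := ∑' k : ℕ, (k ! : ℤ_[p]) * (z : ℤ_[p]) ^ k

theorem norm_mul_le_left (x y : ℤ_[p]) : ‖x * y‖ ≤ ‖x‖ := by
  rw [norm_mul]
  exact mul_le_of_le_one_right (norm_nonneg _) (PadicInt.norm_le_one y)

theorem tendsto_factorial_padic : Tendsto (fun k : ℕ => (k ! : ℤ_[p])) atTop (𝓝 0) := by
  have hp := (Fact.out : p.Prime)
  rw [tendsto_zero_iff_norm_tendsto_zero, Metric.tendsto_atTop]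
  intro ε hε
  obtain ⟨m, hm⟩ := exists_pow_lt_of_lt_one hε
    (show (p : ℝ)⁻¹ < 1 from inv_lt_one_of_one_lt₀ (Nat.one_lt_cast.2 hp.one_lt))
  refine ⟨p * m, fun k hk => ?_⟩
  obtain ⟨c, hc⟩ : p ^ m ∣ k ! :=
    (((pow_dvd_pow p (Nat.le_add_left m _)).trans
      (padicValNat_factorial_mul (p := p) m ▸ pow_padicValNat_dvd))).trans
      (Nat.factorial_dvd_factorial hk)
  rw [dist_zero_right, norm_norm, hc, Nat.cast_mul, Nat.cast_pow]
  refine lt_of_le_of_lt ((norm_mul_le_left _ _).trans_eq ?_) hm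
  rw [norm_pow, PadicInt.norm_p]

theorem summable_euler (z : ℤ) : Summable fun k : ℕ => (k ! : ℤ_[p]) * (z : ℤ_[p]) ^ k := by
  refine NonarchimedeanAddGroup.summable_of_tendsto_cofinite_zero ?_
  rw [Nat.cofinite_eq_atTop]
  refine squeeze_zero_norm (fun k => norm_mul_le_left _ _) ?_
  simpa using (tendsto_factorial_padic (p := p)).norm

theorem hasSum_prodCoeff (z : ℤ) (n : ℕ) :
    HasSum (fun k : ℕ => ((prodCoeff n k * z ^ k : ℤ) : ℤ_[p]))
      (((padeDen n).eval z : ℤ) * eulerValue p z) := by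
  have h : ∀ i, HasSum
      (fun k : ℕ => if i ≤ k then ((padeCoeff n i * (k - i)! * z ^ k : ℤ) : ℤ_[p]) else 0)
      ((padeCoeff n i * z ^ i : ℤ) * eulerValue p z) := fun i => by
    refine ((add_left_injective i).hasSum_iff fun k hk => ?_).1 ?_
    · exact if_neg fun h => hk ⟨k - i, Nat.sub_add_cancel h⟩
    · refine ((summable_euler z).hasSum.mul_left
        ((padeCoeff n i * z ^ i : ℤ) : ℤ_[p])).congr_fun fun k => ?_
      simp only [Function.comp_apply, Nat.le_add_left, if_true, Nat.add_sub_cancel]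
      push_cast
      ring
  convert hasSum_sum (s := range (n + 1)) fun i _ => h i using 1
  · funext k
    rw [prodCoeff, sum_mul, Int.cast_sum]
    exact sum_congr rfl fun i _ => by split_ifs <;> simp
  · rw [padeDen, Polynomial.eval_finsetSum, ← sum_mul, Int.cast_sum]
    simp

/-- **The remainder is small.** -/
theorem norm_remainder_le (z : ℤ) (n : ℕ) :
    ‖(((padeDen n).eval z : ℤ) : ℤ_[p]) * eulerValue p z - (((padeNum n).eval z : ℤ) : ℤ_[p])‖ ≤
      ‖(n ! : ℤ_[p])‖ ^ 2 := by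
  have h := (hasSum_nat_add_iff' n).2 (hasSum_prodCoeff (p := p) z n)
  rw [← Int.cast_sum, show ∑ i ∈ range n, prodCoeff n i * z ^ i = (padeNum n).eval z by
    simp [padeNum, Polynomial.eval_finsetSum]] at h
  refine le_of_tendsto h.norm (Eventually.of_forall fun s => ?_)
  refine IsUltrametricDist.norm_sum_le_of_forall_le_of_nonneg (sq_nonneg _) fun k _ => ?_
  obtain ⟨c, hc⟩ := sq_factorial_dvd_prodCoeff (Nat.le_add_left n k)
  rw [hc, mul_assoc, Int.cast_mul, Int.cast_pow, Int.cast_natCast, ← norm_pow]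
  exact norm_mul_le_left _ _

/-- The linear form. -/
def linearForm (a b z : ℤ) (n : ℕ) : ℤ := a * (padeDen n).eval z - b * (padeNum n).eval z

theorem pow_dvd_linearForm {a b z : ℤ} (h : (b : ℤ_[p]) * eulerValue p z = a) (n : ℕ) :
    (((p ^ (n !).factorization p) ^ 2 : ℕ) : ℤ) ∣ linearForm a b z n := by
  rw [← pow_mul, Nat.cast_pow, ← PadicInt.norm_int_le_pow_iff_dvd]
  have h1 : (linearForm a b z n : ℤ_[p]) = (b : ℤ_[p]) *
      ((((padeDen n).eval z : ℤ) : ℤ_[p]) * eulerValue p z -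
        (((padeNum n).eval z : ℤ) : ℤ_[p])) := by
    rw [linearForm, Int.cast_sub, Int.cast_mul, Int.cast_mul, ← h]
    ring
  rw [h1, mul_comm]
  refine (norm_mul_le_left _ _).trans ((norm_remainder_le z n).trans ?_)
  obtain ⟨c, hc⟩ := Nat.ordProj_dvd (n !) p
  rw [Nat.cast_mul, ← neg_mul, zpow_mul, zpow_natCast, zpow_neg, zpow_natCast]
  refine pow_le_pow_left₀ (norm_nonneg _) ?_ 2
  nth_rewrite 1 [hc]
  rw [Nat.cast_mul, Nat.cast_pow]
  refine (norm_mul_le_left _ _).trans_eq ?_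
  rw [norm_pow, PadicInt.norm_p, inv_pow]

end FA.EulerDivergent
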