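import Mathlib.Analysis.SpecialFunctions.Pow.Real
import Mathlib.Analysis.PSeries
import Mathlib.Data.Nat.Prime.Factorial
import Fermat.Agent.EulerDivergent.Padic

/-!
# No rational number is the sum of `∑ k! z ^ k` for almost all primes

The linear forms of the Padé approximants grow like `n!` and would be divisible by nearly `n! ^ 2`.
-/

set_option autoImplicit false

noncomputable section

namespace FA.EulerDivergent

open Finset Filter
open scoped Nat Topology

open Classical in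
/-- `∑ log p / (p - 1)` over the primes `p ≤ x` of `S`. -/
def exceptSum (S : Set ℕ) (x : ℕ) : ℝ :=
  ∑ p ∈ (range (x + 1)).filter (fun p => p.Prime ∧ p ∈ S), Real.log p / ((p : ℝ) - 1)

theorem abs_padeDen_eval_le {z : ℤ} (hz : z ≠ 0) (n : ℕ) :
    |(padeDen n).eval z| ≤ 8 ^ n * n ! * |z| ^ n := by
  have h1 : ∀ i ∈ range (n + 1), |padeCoeff n i * z ^ i| ≤ 2 ^ n * n ! * |z| ^ n := fun i hi => by
    have hi' : i ≤ n := Nat.lt_succ_iff.1 (mem_range.1 hi)
    have hc : ((n.choose i ^ 2 * i ! : ℕ) : ℤ) ≤ ((2 ^ n * n ! : ℕ) : ℤ) := Int.ofNat_le.2 <| by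
      rw [sq, mul_assoc]
      refine Nat.mul_le_mul (Nat.choose_le_two_pow n i) ?_
      rw [← Nat.choose_mul_factorial_mul_factorial hi']
      exact Nat.le_mul_of_pos_right _ (Nat.factorial_pos _)
    push_cast at hc
    rw [abs_mul, abs_pow, padeCoeff, abs_mul, abs_mul, abs_pow, abs_neg, abs_one, one_pow, one_mul,
      abs_pow, Nat.abs_cast, Nat.abs_cast]
    exact mul_le_mul hc (pow_le_pow_right₀ (Int.one_le_abs hz) hi') (by positivity) (by positivity)
  rw [padeDen, Polynomial.eval_finsetSum]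
  refine (abs_sum_le_sum_abs _ _).trans (le_trans (sum_le_card_nsmul _ _ (2 ^ n * n ! * |z| ^ n)
    fun i hi => by simpa using h1 i hi) ?_)
  have h2 : ((n + 1 : ℕ) : ℤ) ≤ 4 ^ n := by exact_mod_cast Nat.lt_pow_self (n := n) (by norm_num)
  rw [card_range, nsmul_eq_mul, show (8 : ℤ) ^ n = 4 ^ n * 2 ^ n by rw [← mul_pow]; norm_num]
  refine le_trans (mul_le_mul_of_nonneg_right h2 (by positivity)) (le_of_eq ?_)
  ring

theorem abs_padeNum_eval_le {z : ℤ} (hz : z ≠ 0) (n : ℕ) :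
    |(padeNum n).eval z| ≤ 8 ^ n * n ! * |z| ^ n := by
  have h1 : ∀ k ∈ range n, |prodCoeff n k * z ^ k| ≤ ((n + 1) * 2 ^ n * n !) * |z| ^ n := by
    intro k hk
    have hk' : k ≤ n := (mem_range.1 hk).le
    rw [abs_mul, abs_pow]
    refine mul_le_mul ?_ (pow_le_pow_right₀ (Int.one_le_abs hz) hk') (by positivity) (by positivity)
    refine (abs_sum_le_sum_abs _ _).trans (le_trans (sum_le_card_nsmul _ _ ((2 : ℤ) ^ n * n !)
      fun i hi => ?_) ?_)
    · have hi' : i ≤ n := Nat.lt_succ_iff.1 (mem_range.1 hi)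
      split_ifs with hik
      · have hc : ((n.choose i ^ 2 * i ! * (k - i)! : ℕ) : ℤ) ≤ ((2 ^ n * n ! : ℕ) : ℤ) :=
          Int.ofNat_le.2 <| by
            rw [sq, mul_assoc, mul_assoc]
            refine Nat.mul_le_mul (Nat.choose_le_two_pow n i) ?_
            rw [← Nat.choose_mul_factorial_mul_factorial hi', mul_assoc (n.choose i)]
            exact Nat.mul_le_mul_left _ (Nat.mul_le_mul_left _
              (Nat.factorial_le (Nat.sub_le_sub_right hk' i)))
        push_cast at hc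
        rwa [padeCoeff, abs_mul, abs_mul, abs_mul, abs_pow, abs_neg, abs_one, one_pow, one_mul,
          abs_pow, Nat.abs_cast, Nat.abs_cast, Nat.abs_cast]
      · simp only [abs_zero]
        positivity
    · rw [card_range, nsmul_eq_mul]
      push_cast
      rw [mul_assoc]
  rw [padeNum, Polynomial.eval_finsetSum]
  refine (abs_sum_le_sum_abs _ _).trans (le_trans (sum_le_card_nsmul _ _ _
    fun k hk => by simpa using h1 k hk) ?_)
  have h2 : ((n + 1 : ℕ) : ℤ) ≤ 2 ^ n := by exact_mod_cast Nat.lt_two_pow_self (n := n)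
  have h3 : (n : ℤ) ≤ 2 ^ n := by push_cast at h2; omega
  rw [card_range, nsmul_eq_mul, show (8 : ℤ) ^ n = 2 ^ n * (2 ^ n * 2 ^ n) by
    rw [← mul_pow, ← mul_pow]; norm_num]
  refine le_trans (mul_le_mul_of_nonneg_right h3 (by positivity)) ?_
  have h4 : ((n : ℤ) + 1) * 2 ^ n ≤ 2 ^ n * 2 ^ n :=
    mul_le_mul_of_nonneg_right (by exact_mod_cast h2) (by positivity)
  refine le_of_eq_of_le ?_ ((mul_le_mul_of_nonneg_left
    (mul_le_mul_of_nonneg_right h4 (show (0 : ℤ) ≤ n ! * |z| ^ n by positivity))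
    (show (0 : ℤ) ≤ 2 ^ n by positivity)).trans (le_of_eq ?_)) <;> ring

theorem abs_linearForm_le {z : ℤ} (hz : z ≠ 0) (a b : ℤ) (n : ℕ) :
    |linearForm a b z n| ≤ (|a| + |b|) * (8 ^ n * n ! * |z| ^ n) := by
  rw [linearForm, add_mul]
  refine (abs_sub _ _).trans (add_le_add ?_ ?_) <;> rw [abs_mul]
  · exact mul_le_mul_of_nonneg_left (abs_padeDen_eval_le hz n) (abs_nonneg a)
  · exact mul_le_mul_of_nonneg_left (abs_padeNum_eval_le hz n) (abs_nonneg b)

theorem linearForm_ne_zero {z b : ℤ} (hz : z ≠ 0) (hb : b ≠ 0) (a : ℤ) (n : ℕ) :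
    linearForm a b z n ≠ 0 ∨ linearForm a b z (n + 1) ≠ 0 := by
  by_contra! h
  have h1 := congrArg (Polynomial.eval z) (padeDen_mul_padeNum_sub n)
  simp only [Polynomial.eval_sub, Polynomial.eval_mul, Polynomial.eval_neg, Polynomial.eval_C,
    Polynomial.eval_pow, Polynomial.eval_X] at h1
  have h2 : b * ((n ! : ℤ) ^ 2 * z ^ (2 * n)) = 0 := by
    obtain ⟨h0, h1'⟩ := h
    simp only [linearForm] at h0 h1'
    linear_combination (padeDen (n + 1)).eval z * h0 - (padeDen n).eval z * h1' + b * h1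
  simp [hb, hz, Nat.factorial_ne_zero] at h2

/-- The Padé forms against the product formula. -/
theorem log_factorial_le {S : Set ℕ} {a b z : ℤ}
    (h : ∀ p, ∀ _ : Fact p.Prime, p ∉ S → (b : ℤ_[p]) * eulerValue p z = a) {n : ℕ}
    (hn : linearForm a b z n ≠ 0) :
    2 * Real.log (n ! : ℝ) ≤ Real.log |(linearForm a b z n : ℝ)| + 2 * n * exceptSum S n := by
  classical
  rw [Real.log_nat_eq_sum_factorization, Finsupp.sum, Nat.support_factorization, mul_sum,
    ← sum_filter_add_sum_filter_not (n !).primeFactors (fun p => p ∉ S)]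
  refine add_le_add ?_ ?_
  · have hdvd : (∏ p ∈ (n !).primeFactors.filter (fun p => p ∉ S),
        (((p ^ (n !).factorization p) ^ 2 : ℕ) : ℤ)) ∣ linearForm a b z n := by
      refine Finset.prod_dvd_of_coprime (fun p hp q hq hpq => ?_) fun p hp => ?_
      · simp only [coe_filter, Set.mem_ofPred_eq, Nat.mem_primeFactors] at hp hq
        rw [Function.onFun, Nat.isCoprime_iff_coprime]
        exact (Nat.coprime_pow_primes _ _ hp.1.1 hq.1.1 hpq).pow 2 2
      · have hp' := mem_filter.1 hp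
        have : Fact p.Prime := ⟨(Nat.prime_of_mem_primeFactors hp'.1)⟩
        exact pow_dvd_linearForm (h p this hp'.2) n
    have hle := Int.le_of_dvd (abs_pos.2 hn) ((dvd_abs _ _).2 hdvd)
    have hlt : (0 : ℤ) < ∏ p ∈ (n !).primeFactors.filter (fun p => p ∉ S),
        (((p ^ (n !).factorization p) ^ 2 : ℕ) : ℤ) := prod_pos fun p hp => Nat.cast_pos.2
      (pow_pos (pow_pos (Nat.pos_of_mem_primeFactors (mem_filter.1 hp).1) _) _)
    have hlog := Real.log_le_log (Int.cast_pos (R := ℝ).2 hlt) (Int.cast_le.2 hle)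
    rw [Int.cast_abs] at hlog
    refine le_trans (le_of_eq ?_) hlog
    push_cast
    rw [Real.log_prod fun p hp => pow_ne_zero _ (pow_ne_zero _
      (Nat.cast_ne_zero.2 (Nat.pos_of_mem_primeFactors (mem_filter.1 hp).1).ne'))]
    exact sum_congr rfl fun p _ => by rw [Real.log_pow, Real.log_pow, Nat.cast_two]
  · rw [exceptSum, mul_sum]
    refine le_trans (sum_le_sum fun p hp => ?_) (sum_le_sum_of_subset_of_nonneg
      (fun p hp => ?_) fun p hp _ => ?_)
    · have hp' := Nat.prime_of_mem_primeFactors (mem_filter.1 hp).1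
      have := Fact.mk hp'
      have h1 : ((p - 1) * (n !).factorization p : ℕ) ≤ n := by
        rw [Nat.factorization_def _ hp', sub_one_mul_padicValNat_factorial]
        exact Nat.sub_le _ _
      have h2 : ((p : ℝ) - 1) * ((n !).factorization p : ℝ) ≤ n := by
        have := (Nat.cast_le (α := ℝ)).2 h1
        rwa [Nat.cast_mul, Nat.cast_sub hp'.one_le, Nat.cast_one] at this
      have h3 : (0 : ℝ) < p - 1 := sub_pos.2 (Nat.one_lt_cast.2 hp'.one_lt)
      rw [← mul_div_assoc, le_div_iff₀ h3]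
      nlinarith [mul_le_mul_of_nonneg_right h2 (Real.log_natCast_nonneg p)]
    · obtain ⟨hp', hpS⟩ := mem_filter.1 hp
      have hpp := Nat.prime_of_mem_primeFactors hp'
      exact mem_filter.2 ⟨mem_range.2 (Nat.lt_succ_of_le
        ((Nat.Prime.dvd_factorial hpp).1 (Nat.dvd_of_mem_primeFactors hp'))), hpp, not_not.1 hpS⟩
    · have hpp := (mem_filter.1 hp).2.1
      exact mul_nonneg (by positivity) (div_nonneg (Real.log_natCast_nonneg p)
        (sub_nonneg.2 (Nat.one_le_cast.2 hpp.one_le)))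

theorem mul_log_sub_le_log_factorial {n : ℕ} (hn : 1 ≤ n) :
    n * Real.log n - n ≤ Real.log (n ! : ℝ) := by
  have h0 : (0 : ℝ) < n := Nat.cast_pos.2 hn
  have hf : (0 : ℝ) < (n ! : ℝ) := Nat.cast_pos.2 n.factorial_pos
  have h := Real.log_le_log (div_pos (pow_pos h0 n) hf) (Real.pow_div_factorial_le_exp n h0.le n)
  rw [Real.log_div (pow_pos h0 n).ne' hf.ne', Real.log_pow, Real.log_exp] at h
  linarith

/-- **No rational number is the value at every prime outside a thin set.** -/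
theorem exists_prime_eulerValue_ne {S : Set ℕ} {θ C : ℝ} (hθ : θ < 1 / 2)
    (hS : ∀ x : ℕ, 1 ≤ x → exceptSum S x ≤ θ * Real.log x + C) {z : ℤ} (hz : z ≠ 0) (r : ℚ) :
    ∃ p : ℕ, ∃ _ : Fact p.Prime, p ∉ S ∧ ((eulerValue p z : ℤ_[p]) : ℚ_[p]) ≠ (r : ℚ_[p]) := by
  by_contra! h
  have hab : ∀ p, ∀ _ : Fact p.Prime, p ∉ S →
      ((r.den : ℤ) : ℤ_[p]) * eulerValue p z = (r.num : ℤ) := fun p hp hpS => by
    apply PadicInt.ext
    have he := h p hp hpS
    push_cast
    rw [he]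
    exact_mod_cast r.den_mul_eq_num
  set M : ℝ := |(r.num : ℝ)| + |((r.den : ℤ) : ℝ)| with hM
  have hM1 : 1 ≤ M := by
    have : (1 : ℝ) ≤ |((r.den : ℤ) : ℝ)| := by
      rw [Int.cast_natCast, Nat.abs_cast]
      exact Nat.one_le_cast.2 r.den_pos
    linarith [abs_nonneg (r.num : ℝ)]
  have hz1 : 1 ≤ |(z : ℝ)| := by exact_mod_cast Int.one_le_abs hz
  set K : ℝ := Real.log M + Real.log (8 * |(z : ℝ)|) + 2 * C + 1 with hK
  obtain ⟨N, hN⟩ := exists_nat_gt (Real.exp (K / (1 - 2 * θ)))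
  obtain ⟨n, hNn, hn⟩ : ∃ n, N ≤ n ∧ linearForm r.num (r.den : ℤ) z n ≠ 0 := by
    rcases linearForm_ne_zero hz (Int.natCast_ne_zero.2 r.den_pos.ne') r.num N with h0 | h0
    exacts [⟨N, le_rfl, h0⟩, ⟨N + 1, Nat.le_succ N, h0⟩]
  have hn1 : 1 ≤ n := by
    have : (0 : ℝ) < N := (Real.exp_pos _).trans hN
    exact le_trans (by exact_mod_cast this) hNn
  have hn0 : (0 : ℝ) < n := Nat.cast_pos.2 hn1
  have h1 := log_factorial_le hab hn
  have h2 : Real.log |(linearForm r.num (r.den : ℤ) z n : ℝ)| ≤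
      Real.log M + n * Real.log (8 * |(z : ℝ)|) + Real.log (n ! : ℝ) := by
    have hle := (Int.cast_le (R := ℝ)).2 (abs_linearForm_le hz r.num (r.den : ℤ) n)
    push_cast at hle
    refine (Real.log_le_log (abs_pos.2 (Int.cast_ne_zero.2 hn)) hle).trans (le_of_eq ?_)
    rw [show (8 : ℝ) ^ n * (n ! : ℝ) * |(z : ℝ)| ^ n = (8 * |(z : ℝ)|) ^ n * (n ! : ℝ) by ring,
      Real.log_mul (by simp only [hM, Int.cast_natCast] at hM1 ⊢; linarith)
        (mul_ne_zero (pow_ne_zero _ (mul_ne_zero (by norm_num) (by linarith)))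
          (Nat.cast_ne_zero.2 n.factorial_ne_zero)),
      Real.log_mul (pow_ne_zero _ (mul_ne_zero (by norm_num) (by linarith)))
        (Nat.cast_ne_zero.2 n.factorial_ne_zero), Real.log_pow, hM, Int.cast_natCast]
    ring
  have h3 := mul_log_sub_le_log_factorial hn1
  have h4 := mul_le_mul_of_nonneg_left (hS n hn1) (show (0 : ℝ) ≤ 2 * n by positivity)
  have h5 : K / (1 - 2 * θ) < Real.log n := by
    rw [← Real.log_exp (K / (1 - 2 * θ))]
    exact Real.log_lt_log (Real.exp_pos _) (hN.trans_le (Nat.cast_le.2 hNn))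
  rw [div_lt_iff₀ (by linarith)] at h5
  have h6 := mul_lt_mul_of_pos_left h5 hn0
  have h7 : Real.log M ≤ n * Real.log M :=
    le_mul_of_one_le_left (Real.log_nonneg hM1) (Nat.one_le_cast.2 hn1)
  simp only [hK] at h6
  linarith

/-- **Infinitely many primes avoid each rational.** -/
theorem infinite_eulerValue_ne {z : ℤ} (hz : z ≠ 0) (r : ℚ) :
    {p : ℕ | ∃ _ : Fact p.Prime, ((eulerValue p z : ℤ_[p]) : ℚ_[p]) ≠ (r : ℚ_[p])}.Infinite := by
  classical
  intro hfin
  obtain ⟨p, hp, hpS, hne⟩ := exists_prime_eulerValue_ne (S := _) (θ := 0)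
    (C := ∑ p ∈ hfin.toFinset.filter Nat.Prime, Real.log p / ((p : ℝ) - 1)) (by norm_num)
    (fun x _ => by
      rw [zero_mul, zero_add]
      refine sum_le_sum_of_subset_of_nonneg (fun p hp => ?_) fun p hp _ => ?_
      · simp only [mem_filter, Set.Finite.mem_toFinset] at hp ⊢
        exact ⟨hp.2.2, hp.2.1⟩
      · exact div_nonneg (Real.log_natCast_nonneg p)
          (sub_nonneg.2 (Nat.one_le_cast.2 (mem_filter.1 hp).2.one_le))) hz r
  exact hpS ⟨hp, hne⟩

theorem exists_exceptSum_sub_le : ∃ K : ℝ, ∀ (S : Set ℕ) (x : ℕ),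
    open Classical in exceptSum S x ≤
      ∑ p ∈ (range (x + 1)).filter (fun p => p.Prime ∧ p ∈ S), Real.log p / p + K := by
  classical
  have hs : Summable fun p : ℕ => 4 * (1 / (p : ℝ) ^ (3 / 2 : ℝ)) :=
    (Real.summable_one_div_nat_rpow.2 (by norm_num)).mul_left 4
  refine ⟨∑' p : ℕ, 4 * (1 / (p : ℝ) ^ (3 / 2 : ℝ)), fun S x => ?_⟩
  rw [exceptSum, ← sub_le_iff_le_add', ← sum_sub_distrib]
  refine le_trans (sum_le_sum fun p hp => ?_) (hs.sum_le_tsum _ fun p _ => by positivity)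
  have h2 : (2 : ℝ) ≤ p := Nat.ofNat_le_cast.2 (mem_filter.1 hp).2.1.two_le
  have hlog : Real.log p ≤ 2 * (p : ℝ) ^ (1 / 2 : ℝ) :=
    (Real.log_le_rpow_div (by linarith) (by norm_num : (0 : ℝ) < 1 / 2)).trans_eq (by ring)
  have hl0 : 0 ≤ Real.log p := Real.log_natCast_nonneg p
  have hq : (p : ℝ) ^ (3 / 2 : ℝ) * (p : ℝ) ^ (1 / 2 : ℝ) = (p : ℝ) ^ 2 := by
    rw [← Real.rpow_add (by linarith)]
    norm_num
  have hq0 : 0 < (p : ℝ) ^ (3 / 2 : ℝ) := by positivity
  rw [div_sub_div _ _ (by linarith) (by linarith), mul_one_div, div_le_div_iff₀ (by nlinarith) hq0]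
  nlinarith [mul_le_mul_of_nonneg_right hlog hq0.le]

/-- **The primes avoiding a rational are not thin.** -/
theorem eulerValue_ne_not_thin {z : ℤ} (hz : z ≠ 0) (r : ℚ) {θ : ℝ} (hθ : θ < 1 / 2) (C : ℝ) :
    ∃ x : ℕ, 1 ≤ x ∧ open Classical in θ * Real.log x + C <
      ∑ p ∈ (range (x + 1)).filter (fun p => p.Prime ∧
        p ∈ {p : ℕ | ∃ _ : Fact p.Prime, ((eulerValue p z : ℤ_[p]) : ℚ_[p]) ≠ (r : ℚ_[p])}),
        Real.log p / p := by
  obtain ⟨K, hK⟩ := exists_exceptSum_sub_le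
  by_contra! h
  obtain ⟨p, hp, hpS, hne⟩ := exists_prime_eulerValue_ne (C := C + K)
    (S := {p : ℕ | ∃ _ : Fact p.Prime, ((eulerValue p z : ℤ_[p]) : ℚ_[p]) ≠ (r : ℚ_[p])}) hθ
    (fun x hx => (hK _ x).trans ((add_le_add (le_of_eq_of_le (by congr!) (h x hx))
      le_rfl).trans_eq (add_assoc _ _ _))) hz r
  exact hpS ⟨hp, hne⟩

/-- `∑ k k! = -1` in every `ℤ_[p]`. -/
theorem hasSum_mul_factorial {p : ℕ} [Fact p.Prime] :
    HasSum (fun k : ℕ => (k : ℤ_[p]) * (k ! : ℤ_[p])) (-1) := by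
  have hs : Summable fun k : ℕ => (k : ℤ_[p]) * (k ! : ℤ_[p]) := by
    refine NonarchimedeanAddGroup.summable_of_tendsto_cofinite_zero ?_
    rw [Nat.cofinite_eq_atTop]
    refine squeeze_zero_norm (fun k => (congrArg norm (mul_comm _ _)).trans_le
      (norm_mul_le_left _ _)) ?_
    simpa using (tendsto_factorial_padic (p := p)).norm
  have hN : ∀ N : ℕ, ∑ k ∈ range N, (k : ℤ_[p]) * (k ! : ℤ_[p]) = (N ! : ℤ_[p]) - 1 := fun N => by
    induction N with
    | zero => simp
    | succ N ih =>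
      rw [sum_range_succ, ih, Nat.factorial_succ]
      push_cast
      ring
  refine (hs.hasSum_iff_tendsto_nat).2 ?_
  simp only [hN]
  simpa using (tendsto_factorial_padic (p := p)).sub_const 1

end FA.EulerDivergent
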